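import Fermat.Agent.H16.ES1ESRed
import Fermat.Agent.H57.ES1.GaussNormalForm1
import Fermat.Prelude.Thm_ModularCurve_coeff_jqModC_neg_one

/-!
# P-DS / ES1-ES-DG (row 668): the Gauss valuation ring of a level field over `ℚ̄`

`F = ℚ̄ · F₀ ⊆ ℚ̄((q))` a level field, `A` a valuation subring of `ℚ̄`.

* `dg_isGaussRed_add`, `dg_isGaussRed_neg`, `dg_isGaussRed_zero` : the additive part of the
  calculus of `Fermat.Agent.H16.IsGaussRed`;
* `gaussValBar F₀ A hG p hp hA : ValuationSubring F` : the set of all `f ∈ F` which are quotients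
  `a / b` of `A`-integral series with `b̄ ≠ 0` is a valuation ring of `F` (from the Gauss normal
  form `GaussNormalFormGenStatement F₀`);
* `polyJ A Q` : the integral series `Q(j)` for `Q ∈ A[X]`, its image in `ℚ̄((q))` and its
  reduction; `Q(j)` has nonzero reduction as soon as `Q̄ ≠ 0`.
-/

set_option autoImplicit false

noncomputable section

namespace Fermat.Agent.H42.DS

open ModularCurve AlgebraicCurve Polynomial
open Fermat.Agent.H16 Fermat.Agent.H29.ES1

section Calc

variable {L : Type*} [Field L] {A : ValuationSubring L}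

theorem dg_isGaussRed_zero : IsGaussRed A (0 : LaurentSeries L) 0 :=
  ⟨0, 1, by rw [zero_mul, map_zero], by rw [map_one]; exact one_ne_zero,
    by rw [map_zero, zero_mul]⟩

theorem dg_isGaussRed_add {f g : LaurentSeries L}
    {r s : LaurentSeries (IsLocalRing.ResidueField A)}
    (h : IsGaussRed A f r) (h' : IsGaussRed A g s) : IsGaussRed A (f + g) (r + s) := by
  obtain ⟨a, b, hab, hb, har⟩ := h
  obtain ⟨a', b', hab', hb', har'⟩ := h'
  refine ⟨a * b' + a' * b, b * b', ?_, ?_, ?_⟩
  · simp only [map_add, map_mul]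
    rw [← hab, ← hab']
    ring
  · rw [map_mul]
    exact mul_ne_zero hb hb'
  · simp only [map_add, map_mul]
    rw [har, har']
    ring

theorem dg_isGaussRed_neg {f : LaurentSeries L}
    {r : LaurentSeries (IsLocalRing.ResidueField A)}
    (h : IsGaussRed A f r) : IsGaussRed A (-f) (-r) := by
  obtain ⟨a, b, hab, hb, har⟩ := h
  refine ⟨-a, b, ?_, hb, ?_⟩
  · rw [map_neg, ← hab]
    ring
  · rw [map_neg, har]
    ring

/-- A quotient of integral series, the denominator with nonzero reduction, is Gauss reducible. -/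
theorem dg_isGaussRed_of_mul_eq {f : LaurentSeries L} (a b : LaurentSeries A)
    (h : f * coeffMap A.subtype b = coeffMap A.subtype a)
    (hb : coeffMap (IsLocalRing.residue A) b ≠ 0) :
    IsGaussRed A f (coeffMap (IsLocalRing.residue A) a / coeffMap (IsLocalRing.residue A) b) :=
  ⟨a, b, h, hb, (div_mul_cancel₀ _ hb).symm⟩

theorem dg_coeffMap_subtype_C (x : A) :
    coeffMap A.subtype (HahnSeries.C x) = algebraMap L (LaurentSeries L) (x : L) := by
  rw [ModularCurve.algebraMap_laurentSeries_eq_single]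
  show coeffMap A.subtype (HahnSeries.single 0 x) = HahnSeries.single 0 (x : L)
  rw [coeffMap_single]
  rfl

theorem dg_coeffMap_residue_C (x : A) :
    coeffMap (IsLocalRing.residue A) (HahnSeries.C x) =
      algebraMap (IsLocalRing.ResidueField A) (LaurentSeries (IsLocalRing.ResidueField A))
        (IsLocalRing.residue A x) := by
  rw [ModularCurve.algebraMap_laurentSeries_eq_single]
  show coeffMap (IsLocalRing.residue A) (HahnSeries.single 0 x) =
    HahnSeries.single 0 (IsLocalRing.residue A x)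
  rw [coeffMap_single]

end Calc

section Val

variable (F₀ : IntermediateField ℚ (LaurentSeries ℚ))
  (A : ValuationSubring (AlgebraicClosure ℚ))

theorem dg_mem_or_inv_mem (hG : GaussNormalFormGenStatement F₀) (p : ℕ) (hp : p.Prime)
    (hA : A.LiesOverPrime p) (f : laurentBaseChange (AlgebraicClosure ℚ) F₀) :
    (∃ r, IsGaussRed A (f : LaurentSeries (AlgebraicClosure ℚ)) r) ∨
      (∃ r, IsGaussRed A
        ((f⁻¹ : laurentBaseChange (AlgebraicClosure ℚ) F₀) : LaurentSeries (AlgebraicClosure ℚ))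
        r) := by
  by_cases hf : f = 0
  · left
    refine ⟨0, ?_⟩
    rw [hf]
    exact dg_isGaussRed_zero
  obtain ⟨c, a, b, ha, hb, hc, hra, hrb, h⟩ := hG A p hp hA f hf
  have hfL : (f : LaurentSeries (AlgebraicClosure ℚ)) ≠ 0 := fun h0 => hf (Subtype.ext h0)
  have h' : (f : LaurentSeries (AlgebraicClosure ℚ)) * coeffMap A.subtype b =
      algebraMap (AlgebraicClosure ℚ) (LaurentSeries (AlgebraicClosure ℚ)) c *
        coeffMap A.subtype a := congrArg Subtype.val h
  rcases A.mem_or_inv_mem c with hcA | hcA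
  · left
    refine ⟨_, dg_isGaussRed_of_mul_eq (HahnSeries.C (⟨c, hcA⟩ : A) * a) b ?_ hrb⟩
    rw [map_mul, dg_coeffMap_subtype_C]
    exact h'
  · right
    refine ⟨_, dg_isGaussRed_of_mul_eq (HahnSeries.C (⟨c⁻¹, hcA⟩ : A) * b) a ?_ hra⟩
    rw [map_mul, dg_coeffMap_subtype_C]
    show (f : LaurentSeries (AlgebraicClosure ℚ))⁻¹ * coeffMap A.subtype a =
      algebraMap (AlgebraicClosure ℚ) (LaurentSeries (AlgebraicClosure ℚ)) c⁻¹ *
        coeffMap A.subtype b
    have hcL : algebraMap (AlgebraicClosure ℚ) (LaurentSeries (AlgebraicClosure ℚ)) c ≠ 0 := by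
      rw [Ne, map_eq_zero]
      exact hc
    rw [map_inv₀]
    have h1 : coeffMap A.subtype a =
        (algebraMap (AlgebraicClosure ℚ) (LaurentSeries (AlgebraicClosure ℚ)) c)⁻¹ *
          ((f : LaurentSeries (AlgebraicClosure ℚ)) * coeffMap A.subtype b) := by
      rw [h', ← mul_assoc, inv_mul_cancel₀ hcL, one_mul]
    rw [h1, ← mul_assoc, ← mul_assoc,
      mul_comm (f : LaurentSeries (AlgebraicClosure ℚ))⁻¹
        (algebraMap (AlgebraicClosure ℚ) (LaurentSeries (AlgebraicClosure ℚ)) c)⁻¹,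
      mul_assoc (algebraMap (AlgebraicClosure ℚ) (LaurentSeries (AlgebraicClosure ℚ)) c)⁻¹,
      inv_mul_cancel₀ hfL, mul_one]

/-- **The Gauss valuation ring** of the level field `ℚ̄ · F₀` with respect to `A`: all quotients
`a / b` of `A`-integral series with `b̄ ≠ 0`. -/
def gaussValBar (hG : GaussNormalFormGenStatement F₀) (p : ℕ) (hp : p.Prime)
    (hA : A.LiesOverPrime p) :
    ValuationSubring ↥(laurentBaseChange (AlgebraicClosure ℚ) F₀) where
  carrier := {f | ∃ r, IsGaussRed A (f : LaurentSeries (AlgebraicClosure ℚ)) r}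
  zero_mem' := ⟨0, dg_isGaussRed_zero⟩
  one_mem' := ⟨1, IsGaussRed.one⟩
  add_mem' := by
    rintro f g ⟨r, hr⟩ ⟨s, hs⟩
    exact ⟨r + s, dg_isGaussRed_add hr hs⟩
  mul_mem' := by
    rintro f g ⟨r, hr⟩ ⟨s, hs⟩
    exact ⟨r * s, hr.mul hs⟩
  neg_mem' := by
    rintro f ⟨r, hr⟩
    exact ⟨-r, dg_isGaussRed_neg hr⟩
  mem_or_inv_mem' := dg_mem_or_inv_mem F₀ A hG p hp hA

theorem mem_gaussValBar (hG : GaussNormalFormGenStatement F₀) (p : ℕ) (hp : p.Prime)
    (hA : A.LiesOverPrime p) (f : laurentBaseChange (AlgebraicClosure ℚ) F₀) :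
    f ∈ gaussValBar F₀ A hG p hp hA ↔
      ∃ r, IsGaussRed A (f : LaurentSeries (AlgebraicClosure ℚ)) r := Iff.rfl

/-- Elements of the level field which are integral over the Gauss valuation ring are Gauss
reducible. -/
theorem dg_mem_of_isIntegral (hG : GaussNormalFormGenStatement F₀) (p : ℕ) (hp : p.Prime)
    (hA : A.LiesOverPrime p) (f : laurentBaseChange (AlgebraicClosure ℚ) F₀)
    (hf : IsIntegral ↥(gaussValBar F₀ A hG p hp hA) f) :
    ∃ r, IsGaussRed A (f : LaurentSeries (AlgebraicClosure ℚ)) r := by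
  obtain ⟨v, hv⟩ := (IsIntegrallyClosed.isIntegral_iff
    (R := ↥(gaussValBar F₀ A hG p hp hA))
    (K := ↥(laurentBaseChange (AlgebraicClosure ℚ) F₀))).mp hf
  rw [← hv]
  exact v.2

end Val

section PolyJ

variable {L : Type*} [Field L] (A : ValuationSubring L)

/-- The `A`-integral series `Q(j)`, `Q ∈ A[X]`. -/
def polyJ (Q : A[X]) : LaurentSeries A :=
  Polynomial.eval₂ (HahnSeries.C : A →+* LaurentSeries A) (jqModC A) Q

theorem coeffMap_subtype_polyJ (Q : A[X]) :
    coeffMap A.subtype (polyJ A Q) = Polynomial.aeval (jqModC L) (Q.map A.subtype) := by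
  rw [polyJ, Polynomial.hom_eval₂, Polynomial.aeval_def, Polynomial.eval₂_map, coeffMap_jqModC]
  congr 1
  ext x : 1
  exact dg_coeffMap_subtype_C x

theorem coeffMap_residue_polyJ (Q : A[X]) :
    coeffMap (IsLocalRing.residue A) (polyJ A Q) =
      Polynomial.aeval (jqModC (IsLocalRing.ResidueField A)) (Q.map (IsLocalRing.residue A)) := by
  rw [polyJ, Polynomial.hom_eval₂, Polynomial.aeval_def, Polynomial.eval₂_map, coeffMap_jqModC]
  congr 1
  ext x : 1
  exact dg_coeffMap_residue_C x

theorem coeffMap_residue_polyJ_ne_zero (Q : A[X]) (hQ : Q.map (IsLocalRing.residue A) ≠ 0) :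
    coeffMap (IsLocalRing.residue A) (polyJ A Q) ≠ 0 := by
  rw [coeffMap_residue_polyJ]
  intro h
  exact hQ (P2MW.S_ModularCurve_coeff_jqModC_neg_one.ModularCurve.CharLRows.aeval_jqModC_eq_zero
    _ h)

end PolyJ

end Fermat.Agent.H42.DS

end
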