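import Fermat.Agent.H42.DS.DiamondGaussCore
import Fermat.Agent.H91.ES1KL.Interfaces1

/-!
# P-DS / ES1-ES-DG (row 668): the diamond automorphisms preserve the Gauss valuation ring

* `dg_aut_gaussRed` : for a level field `F₀ ∋ j` with the `q`-expansion principle
  `ModelQExpRootGen F₀ p jq N` at `p`, every `ℚ̄`-automorphism `σ` of `ℚ̄ · F₀` fixing `j` maps
  quotients `a / b` of `A`-integral series (`b̄ ≠ 0`) to Gauss reducible elements.
  (The Gauss normal form is used through `GaussNormalFormGenStatement F₀`.)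
* `diamondGauss_at` : the case `F₀ = F1 M`, `σ = diamondAut ℚ̄ M d` (no hypothesis on the existence
  of the diamond data: `diamondAut` fixes `j` unconditionally).
* `DiamondGauss5Statement`, `diamondGauss5 : QExp1Statement → DiamondGauss5Statement` (primes
  `p ≥ 5`), `diamondGauss_of_qexp` (all primes, from the `q`-expansion principle at all primes).
-/

set_option autoImplicit false
set_option linter.style.haveILetI false

noncomputable section

namespace Fermat.Agent.H42.DS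

open ModularCurve AlgebraicCurve Polynomial
open Fermat.Agent.H16 Fermat.Agent.H29.ES1 Fermat.Agent.H22.KL Fermat.Agent.H93.KL
  Fermat.Agent.H91.ES1KL

/-- The statement over an abstract number field `ι : K₁ → ℚ̄` containing the descent data and
the roots of unity. -/
theorem dg_aut_gaussRed_of_descent (F₀ : IntermediateField ℚ (LaurentSeries ℚ)) (hj : jq ∈ F₀)
    (hG : GaussNormalFormGenStatement F₀) (p : ℕ) (hp : p.Prime) (N : ℕ)
    (hQ : ModelQExpRootGen F₀ p jq N)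
    (K₁ : Type) [Field K₁] [Algebra ℚ K₁] [FiniteDimensional ℚ K₁] (ι : K₁ →+* QBar)
    (A : ValuationSubring QBar) (hA : A.LiesOverPrime p)
    (hzK : ∃ z : K₁, IsPrimitiveRoot z N)
    (σ : ↥(laurentBaseChange QBar F₀) ≃ₐ[QBar] ↥(laurentBaseChange QBar F₀))
    (hσ : σ (jBarGen F₀ hj) = jBarGen F₀ hj)
    (a b : LaurentSeries A)
    (hrb : coeffMap (IsLocalRing.residue A) b ≠ 0)
    (a₁ b₁ : LaurentSeries K₁)
    (ha₁ : a₁ ∈ laurentBaseChange K₁ F₀) (hb₁ : b₁ ∈ laurentBaseChange K₁ F₀)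
    (haa : coeffMap ι a₁ = coeffMap A.subtype a) (hbb : coeffMap ι b₁ = coeffMap A.subtype b) :
    ∃ r : LaurentSeries (IsLocalRing.ResidueField A),
      IsGaussRed A
        ((σ (klBc ι F₀ ((⟨a₁, ha₁⟩ : ModelFieldGen K₁ F₀) / ⟨b₁, hb₁⟩)) :
            laurentBaseChange QBar F₀) : LaurentSeries QBar) r := by
  classical
  haveI hdvr : IsDiscreteValuationRing ↥(A.comap ι) :=
    Fermat.Agent.H34.modelDVR K₁ ι A p hp hA
  letI algE : Algebra ↥(A.comap ι) (ModelFieldGen K₁ F₀) :=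
    ((algebraMap K₁ (ModelFieldGen K₁ F₀)).comp (algebraMap ↥(A.comap ι) K₁)).toAlgebra
  haveI : IsScalarTower ↥(A.comap ι) K₁ (ModelFieldGen K₁ F₀) :=
    IsScalarTower.of_algebraMap_eq (fun _ => rfl)
  -- coefficients
  have hcoefa : ∀ n : ℤ, ι (a₁.coeff n) = ((a.coeff n : A) : QBar) := by
    intro n
    have := congrArg (fun z => HahnSeries.coeff z n) haa
    simpa using this
  have hcoefb : ∀ n : ℤ, ι (b₁.coeff n) = ((b.coeff n : A) : QBar) := by
    intro n
    have := congrArg (fun z => HahnSeries.coeff z n) hbb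
    simpa using this
  have hmema : ∀ n : ℤ, a₁.coeff n ∈ A.comap ι := by
    intro n
    rw [ValuationSubring.mem_comap, hcoefa]
    exact (a.coeff n).2
  have hmemb : ∀ n : ℤ, b₁.coeff n ∈ A.comap ι := by
    intro n
    rw [ValuationSubring.mem_comap, hcoefb]
    exact (b.coeff n).2
  -- `p` is not a unit
  have hp' : ¬ IsUnit ((p : ℕ) : ↥(A.comap ι)) := by
    have h1 : ((p : ℕ) : ↥(A.comap ι)) = ⟨(p : K₁), by
        rw [ValuationSubring.mem_comap, map_natCast]; exact natCast_mem A p⟩ :=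
      Subtype.ext (by simp)
    rw [h1, isUnit_comap_iff, valuationSubring_isUnit_iff]
    rintro ⟨h0, hinv⟩
    have h2 : ((p : ℕ) : QBar) ∈ A.nonunits := hA
    rw [ValuationSubring.mem_nonunits_iff_exists_mem_maximalIdeal] at h2
    obtain ⟨hmem, hmax⟩ := h2
    rw [IsLocalRing.mem_maximalIdeal, mem_nonunits_iff] at hmax
    apply hmax
    rw [valuationSubring_isUnit_iff]
    refine ⟨?_, ?_⟩
    · simpa using h0
    · simpa using hinv
  have hca : ∀ n : ℤ, ((⟨a₁, ha₁⟩ : ModelFieldGen K₁ F₀) : LaurentSeries K₁).coeff n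
      ∈ (algebraMap ↥(A.comap ι) K₁).range := fun n => ⟨⟨a₁.coeff n, hmema n⟩, rfl⟩
  have hcb : ∀ n : ℤ, ((⟨b₁, hb₁⟩ : ModelFieldGen K₁ F₀) : LaurentSeries K₁).coeff n
      ∈ (algebraMap ↥(A.comap ι) K₁).range := fun n => ⟨⟨b₁.coeff n, hmemb n⟩, rfl⟩
  have hbu : ∃ (n : ℤ) (c : ↥(A.comap ι)), IsUnit c ∧
      algebraMap ↥(A.comap ι) K₁ c
        = ((⟨b₁, hb₁⟩ : ModelFieldGen K₁ F₀) : LaurentSeries K₁).coeff n := by
    obtain ⟨n, hn⟩ : ∃ n : ℤ, (coeffMap (IsLocalRing.residue A) b).coeff n ≠ 0 := by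
      by_contra hcon
      push Not at hcon
      exact hrb (HahnSeries.ext (funext fun n => by simpa using hcon n))
    rw [coeffMap_coeff] at hn
    have hunit : IsUnit (b.coeff n) := by
      by_contra hnu
      exact hn ((IsLocalRing.residue_eq_zero_iff _).mpr
        ((IsLocalRing.mem_maximalIdeal _).mpr hnu))
    refine ⟨n, ⟨b₁.coeff n, hmemb n⟩, ?_, rfl⟩
    rw [isUnit_comap_iff]
    have : (⟨ι (b₁.coeff n), hmemb n⟩ : ↥A) = b.coeff n := Subtype.ext (hcoefb n)
    rw [this]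
    exact hunit
  obtain ⟨ϖ, hϖ⟩ := IsDiscreteValuationRing.exists_irreducible ↥(A.comap ι)
  have hy : (⟨a₁, ha₁⟩ : ModelFieldGen K₁ F₀) / ⟨b₁, hb₁⟩
      ∈ gaussClosure ↥(A.comap ι) (ModelFieldGen K₁ F₀) ϖ (jKGen F₀ hj K₁) :=
    hQ K₁ ↥(A.comap ι) hp' hzK ϖ hϖ (jKGen F₀ hj K₁) rfl ⟨a₁, ha₁⟩ ⟨b₁, hb₁⟩ hca hcb hbu
  exact dg_core F₀ hj ι A hG p hp hA ϖ hϖ σ hσ _ hy

/-- **Automorphisms over `ℚ̄(j)` preserve the Gauss valuation ring** (given the `q`-expansion
principle at `p`). -/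
theorem dg_aut_gaussRed (F₀ : IntermediateField ℚ (LaurentSeries ℚ)) (hj : jq ∈ F₀)
    (hG : GaussNormalFormGenStatement F₀) (p : ℕ) (hp : p.Prime) (N : ℕ) (hN : 0 < N)
    (hQ : ModelQExpRootGen F₀ p jq N)
    (A : ValuationSubring QBar) (hA : A.LiesOverPrime p)
    (σ : ↥(laurentBaseChange QBar F₀) ≃ₐ[QBar] ↥(laurentBaseChange QBar F₀))
    (hσ : σ (jBarGen F₀ hj) = jBarGen F₀ hj)
    (a b : LaurentSeries A)
    (ha : coeffMap A.subtype a ∈ laurentBaseChange QBar F₀)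
    (hb : coeffMap A.subtype b ∈ laurentBaseChange QBar F₀)
    (hrb : coeffMap (IsLocalRing.residue A) b ≠ 0) :
    ∃ r : LaurentSeries (IsLocalRing.ResidueField A),
      IsGaussRed A
        ((σ ((⟨coeffMap A.subtype a, ha⟩ : laurentBaseChange QBar F₀)
          / (⟨coeffMap A.subtype b, hb⟩ : laurentBaseChange QBar F₀)) :
            laurentBaseChange QBar F₀) : LaurentSeries QBar) r := by
  classical
  obtain ⟨Ka, hKa, hA'⟩ := coeffDescentFinal F₀ (coeffMap A.subtype a) ha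
  obtain ⟨Kb, hKb, hB'⟩ := coeffDescentFinal F₀ (coeffMap A.subtype b) hb
  haveI : NeZero ((N : ℕ) : ℚ) := ⟨Nat.cast_ne_zero.mpr hN.ne'⟩
  obtain ⟨ζ, hζ⟩ := HasEnoughRootsOfUnity.exists_primitiveRoot QBar N
  let K : IntermediateField ℚ QBar :=
    (Ka ⊔ Kb) ⊔ IntermediateField.adjoin ℚ ({ζ} : Set QBar)
  haveI : FiniteDimensional ℚ ↥Ka := hKa
  haveI : FiniteDimensional ℚ ↥Kb := hKb
  have halg : Algebra.IsAlgebraic ℚ QBar := AlgebraicClosure.isAlgebraic ℚ
  haveI : FiniteDimensional ℚ ↥(IntermediateField.adjoin ℚ ({ζ} : Set QBar)) :=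
    IntermediateField.finiteDimensional_adjoin
      (fun x _ => (Algebra.IsAlgebraic.isAlgebraic (R := ℚ) x).isIntegral)
  haveI : FiniteDimensional ℚ ↥(Ka ⊔ Kb) := IntermediateField.finiteDimensional_sup _ _
  haveI : FiniteDimensional ℚ ↥K := IntermediateField.finiteDimensional_sup _ _
  have hrange : ∀ c ∈ K, c ∈ (algebraMap ↥K QBar).range := fun c hc => ⟨⟨c, hc⟩, rfl⟩
  have hKa_le : Ka ≤ K := le_trans le_sup_left le_sup_left
  have hKb_le : Kb ≤ K := le_trans le_sup_right le_sup_left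
  have hζK : ζ ∈ K :=
    (le_sup_right : IntermediateField.adjoin ℚ ({ζ} : Set QBar) ≤ K)
      (IntermediateField.subset_adjoin ℚ _ (Set.mem_singleton ζ))
  obtain ⟨a₁, ha₁, haa⟩ := hA' ↥K (algebraMap ↥K QBar) (fun c hc => hrange c (hKa_le hc))
  obtain ⟨b₁, hb₁, hbb⟩ := hB' ↥K (algebraMap ↥K QBar) (fun c hc => hrange c (hKb_le hc))
  have hzK : ∃ z : ↥K, IsPrimitiveRoot z N :=
    ⟨⟨ζ, hζK⟩, IsPrimitiveRoot.of_map_of_injective (f := algebraMap ↥K QBar) hζ
      (algebraMap ↥K QBar).injective⟩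
  obtain ⟨r, hr⟩ := dg_aut_gaussRed_of_descent F₀ hj hG p hp N hQ ↥K (algebraMap ↥K QBar) A hA
    hzK σ hσ a b hrb a₁ b₁ ha₁ hb₁ haa hbb
  refine ⟨r, ?_⟩
  have e1 : klBc (algebraMap ↥K QBar) F₀ ⟨b₁, hb₁⟩
      = (⟨coeffMap A.subtype b, hb⟩ : laurentBaseChange QBar F₀) := Subtype.ext hbb
  have e2 : klBc (algebraMap ↥K QBar) F₀ ⟨a₁, ha₁⟩
      = (⟨coeffMap A.subtype a, ha⟩ : laurentBaseChange QBar F₀) := Subtype.ext haa
  rw [map_div₀, e1, e2] at hr
  exact hr

/-- The diamond automorphisms fix `j` (unconditionally). -/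
theorem diamondAut_jBarGen (M : ℕ) [NeZero M] (d : (ZMod M)ˣ) :
    diamondAut QBar M d (jBarGen (F1 M) (jq_mem_F1 M)) = jBarGen (F1 M) (jq_mem_F1 M) := by
  have hx : ((jBarGen (F1 M) (jq_mem_F1 M) : laurentBaseChange QBar (F1 M)) : LaurentSeries QBar)
      ∈ laurentBaseChange QBar (modularFunctionFieldFull M) :=
    coeffEmb_mem_laurentBaseChange QBar (modularFunctionField_le_full M (jq_mem M))
  by_cases h : Nonempty (DiamondData QBar M)
  · rw [diamondAut, dif_pos h]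
    exact h.some.aut_full d _ hx
  · rw [diamondAut, dif_neg h]
    rfl

/-- **ES1-ES-DG at `(M, p)`**: the diamond automorphisms preserve the Gauss valuation ring at
`p`, given the `q`-expansion principle for `F1 M` at `p` (over number fields containing the
`N`-th roots of unity). -/
theorem diamondGauss_at (M : ℕ) [NeZero M] (p : ℕ) (hp : p.Prime) (N : ℕ) (hN : 0 < N)
    (hQ : ModelQExpRootGen (F1 M) p jq N)
    (A : ValuationSubring (AlgebraicClosure ℚ)) (hA : A.LiesOverPrime p)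
    (d : (ZMod M)ˣ) (a b : LaurentSeries A)
    (ha : coeffMap A.subtype a ∈ F1Bar M) (hb : coeffMap A.subtype b ∈ F1Bar M)
    (hrb : coeffMap (IsLocalRing.residue A) b ≠ 0) :
    ∃ r : LaurentSeries (IsLocalRing.ResidueField A),
      IsGaussRed A
        ((diamondAut (AlgebraicClosure ℚ) M d
          ((⟨coeffMap A.subtype a, ha⟩ : F1Bar M) / (⟨coeffMap A.subtype b, hb⟩ : F1Bar M)) :
            F1Bar M) : LaurentSeries (AlgebraicClosure ℚ)) r :=
  dg_aut_gaussRed (F1 M) (jq_mem_F1 M) (Fermat.Agent.H57.ES1.gaussNormalForm1 M) p hp N hN hQ A hA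
    (diamondAut (AlgebraicClosure ℚ) M d) (diamondAut_jBarGen M d) a b ha hb hrb

/-- **ES1-ES-DG for the primes `p ≥ 5`.** -/
def DiamondGauss5Statement : Prop :=
  ∀ (M : ℕ) [NeZero M], 5 ≤ M → ∀ (p : ℕ), p.Prime → 5 ≤ p → ¬ p ∣ M →
    ∀ A : ValuationSubring (AlgebraicClosure ℚ), A.LiesOverPrime p →
      ∀ (d : (ZMod M)ˣ) (a b : LaurentSeries A)
        (ha : coeffMap A.subtype a ∈ F1Bar M) (hb : coeffMap A.subtype b ∈ F1Bar M),
        coeffMap (IsLocalRing.residue A) b ≠ 0 →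
        ∃ r : LaurentSeries (IsLocalRing.ResidueField A),
          IsGaussRed A
            ((diamondAut (AlgebraicClosure ℚ) M d
              ((⟨coeffMap A.subtype a, ha⟩ : F1Bar M) / (⟨coeffMap A.subtype b, hb⟩ : F1Bar M)) :
                F1Bar M) : LaurentSeries (AlgebraicClosure ℚ)) r

/-- **ES1-ES-DG, `p ≥ 5`**, from the `q`-expansion principle `QExp1Statement`. -/
theorem diamondGauss5 (hQ : QExp1Statement) : DiamondGauss5Statement := by
  intro M _ hM p hp hp5 hpM A hA d a b ha hb hrb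
  exact diamondGauss_at M p hp (6 * M)
    (Nat.mul_pos (by norm_num) (Nat.pos_of_ne_zero (NeZero.ne M)))
    (hQ M hM p hp hp5 hpM) A hA d a b ha hb hrb

/-- The same with the (unused) hypothesis on the existence of the diamond data. -/
theorem diamondGauss5' (_hD : DiamondExistsStatement) (hQ : QExp1Statement) :
    DiamondGauss5Statement :=
  diamondGauss5 hQ

/-- **ES1-ES-DG** (all primes) from the `q`-expansion principle at all primes `p ∤ M`. -/
theorem diamondGauss_of_qexp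
    (hQ : ∀ (M : ℕ) [NeZero M], 5 ≤ M → ∀ p : ℕ, p.Prime → ¬ p ∣ M →
      ∃ N : ℕ, 0 < N ∧ ModelQExpRootGen (F1 M) p jq N) :
    DiamondGaussStatement := by
  intro M _ hM p hp hpM A hA d a b ha hb hrb
  obtain ⟨N, hN, hQ'⟩ := hQ M hM p hp hpM
  exact diamondGauss_at M p hp N hN hQ' A hA d a b ha hb hrb

/-- **ES1-ES-DG** from `DiamondGauss5Statement` and the cases `p = 2, 3`. -/
theorem diamondGauss_of_five (h5 : DiamondGauss5Statement)
    (h23 : ∀ (M : ℕ) [NeZero M], 5 ≤ M → ∀ p : ℕ, p.Prime → p < 5 → ¬ p ∣ M →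
      ∃ N : ℕ, 0 < N ∧ ModelQExpRootGen (F1 M) p jq N) :
    DiamondGaussStatement := by
  intro M _ hM p hp hpM A hA d a b ha hb hrb
  rcases Nat.lt_or_ge p 5 with h | h
  · obtain ⟨N, hN, hQ'⟩ := h23 M hM p hp h hpM
    exact diamondGauss_at M p hp N hN hQ' A hA d a b ha hb hrb
  · exact h5 M hM p hp h hpM A hA d a b ha hb hrb

end Fermat.Agent.H42.DS

end
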