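import Fermat.Agent.H42.DS.GaussValBar
import Fermat.Agent.H91.ES1KL.AsmGen

/-!
# P-DS / ES1-ES-DG (row 668): automorphisms over `ℚ̄(j)` preserve the Gauss valuation ring

`F₀ ∋ j` a level field, `F = ℚ̄ · F₀`, `A` a valuation subring of `ℚ̄` over `p`, `σ` a
`ℚ̄`-automorphism of `F` with `σ j = j`.

* `dg_core` : if `y₁ ∈ K₁ · F₀` lies in the Gauss closure `C(j)` (with respect to `A ∩ K₁`), then
  `σ (y₁)` is Gauss reducible.  (`h(j) y₁` is integral over `(A ∩ K₁)[j]`, hence `h(j) σ(y₁)` is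
  integral over the Gauss valuation ring of `F`, which is integrally closed; and `h(j)` is a unit
  of the latter.)
* `dg_aut_gaussRed` : with the `q`-expansion principle `ModelQExpRootGen F₀ p jq N`: `σ (a / b)` is
  Gauss reducible for all `A`-integral series `a, b ∈ F` with `b̄ ≠ 0`.
-/

set_option autoImplicit false
set_option linter.unusedSectionVars false

noncomputable section

namespace Fermat.Agent.H42.DS

open ModularCurve AlgebraicCurve Polynomial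
open Fermat.Agent.H16 Fermat.Agent.H29.ES1 Fermat.Agent.H22.KL Fermat.Agent.H93.KL
  Fermat.Agent.H91.ES1KL

section Core

variable (F₀ : IntermediateField ℚ (LaurentSeries ℚ)) (hj : jq ∈ F₀)

/-- `j` in `ℚ̄ · F₀`. -/
def jBarGen : ↥(laurentBaseChange QBar F₀) :=
  ⟨coeffEmb QBar jq, coeffEmb_mem_laurentBaseChange QBar hj⟩

/-- `j` in `K₁ · F₀`. -/
def jKGen (K₁ : Type) [Field K₁] [Algebra ℚ K₁] : ModelFieldGen K₁ F₀ :=
  ⟨coeffEmb K₁ jq, coeffEmb_mem_laurentBaseChange K₁ hj⟩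

theorem coe_aeval_jBarGen (Q' : QBar[X]) :
    ((Polynomial.aeval (jBarGen F₀ hj) Q' : ↥(laurentBaseChange QBar F₀)) : LaurentSeries QBar)
      = Polynomial.aeval (jqModC QBar) Q' := by
  have h := Polynomial.aeval_algHom_apply (laurentBaseChange QBar F₀).val (jBarGen F₀ hj) Q'
  have h1 : (laurentBaseChange QBar F₀).val (jBarGen F₀ hj) = jqModC QBar := by
    show coeffEmb QBar jq = jqModC QBar
    rw [coeffEmb, ← jqModC_rat, coeffMap_jqModC]
  rw [h1] at h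
  rw [h]
  rfl

variable {K₁ : Type} [Field K₁] [Algebra ℚ K₁] (ι : K₁ →+* QBar) (A : ValuationSubring QBar)

/-- The inclusion `A ∩ K₁ → A`. -/
def comapToA : ↥(A.comap ι) →+* ↥A :=
  (ι.comp (A.comap ι).subtype).codRestrict A (fun x => x.2)

theorem comapToA_coe (a : ↥(A.comap ι)) : ((comapToA ι A a : ↥A) : QBar) = ι (a : K₁) := rfl

theorem comapToA_residue_eq_zero {a : ↥(A.comap ι)}
    (h : IsLocalRing.residue ↥A (comapToA ι A a) = 0) :
    a ∈ IsLocalRing.maximalIdeal ↥(A.comap ι) := by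
  rw [IsLocalRing.mem_maximalIdeal, mem_nonunits_iff]
  intro hu
  rw [IsLocalRing.residue_eq_zero_iff, IsLocalRing.mem_maximalIdeal, mem_nonunits_iff] at h
  exact h (hu.map (comapToA ι A))

variable [Algebra ↥(A.comap ι) (ModelFieldGen K₁ F₀)]
  [IsScalarTower ↥(A.comap ι) K₁ (ModelFieldGen K₁ F₀)]

theorem klBc_aeval_jKGen (P : (↥(A.comap ι))[X]) :
    klBc ι F₀ (Polynomial.aeval (jKGen F₀ hj K₁) P)
      = Polynomial.aeval (jBarGen F₀ hj) ((P.map (comapToA ι A)).map A.subtype) := by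
  have h1 : klBc ι F₀ (jKGen F₀ hj K₁) = jBarGen F₀ hj :=
    Fermat.Agent.H73.KLDesc.klBc_coeffEmb ι F₀ jq _ _
  rw [Polynomial.aeval_def, Polynomial.hom_eval₂, Polynomial.aeval_def, Polynomial.eval₂_map,
    Polynomial.eval₂_map, h1]
  congr 1
  ext a : 1
  rw [RingHom.comp_apply, IsScalarTower.algebraMap_apply ↥(A.comap ι) K₁ (ModelFieldGen K₁ F₀),
    Fermat.Agent.H73.KLDesc.klBc_algebraMap]
  rfl

/-- The integral presentation of `klBc (P(j))`. -/
theorem coe_klBc_aeval_jKGen (P : (↥(A.comap ι))[X]) :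
    ((klBc ι F₀ (Polynomial.aeval (jKGen F₀ hj K₁) P) : ↥(laurentBaseChange QBar F₀)) :
      LaurentSeries QBar) = coeffMap A.subtype (polyJ A (P.map (comapToA ι A))) := by
  rw [klBc_aeval_jKGen, coe_aeval_jBarGen, coeffMap_subtype_polyJ]

theorem aut_klBc_aeval_jKGen (σ : ↥(laurentBaseChange QBar F₀) ≃ₐ[QBar] ↥(laurentBaseChange QBar F₀))
    (hσ : σ (jBarGen F₀ hj) = jBarGen F₀ hj) (P : (↥(A.comap ι))[X]) :
    σ (klBc ι F₀ (Polynomial.aeval (jKGen F₀ hj K₁) P))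
      = klBc ι F₀ (Polynomial.aeval (jKGen F₀ hj K₁) P) := by
  rw [klBc_aeval_jKGen, ← Polynomial.aeval_algHom_apply σ, hσ]

/-- If `P(j)` is not divisible by `ϖ` in `A₁[j]`, then `P̄ ≠ 0`. -/
theorem map_residue_ne_zero_of_not_piDvd [IsDiscreteValuationRing ↥(A.comap ι)]
    (ϖ : ↥(A.comap ι)) (hϖ : Irreducible ϖ) (P : (↥(A.comap ι))[X])
    (hP : ¬ Fermat.Agent.H67.KLConn.PiDvd ϖ
      (chartRing ↥(A.comap ι) (ModelFieldGen K₁ F₀) (jKGen F₀ hj K₁)) 1
        (Polynomial.aeval (jKGen F₀ hj K₁) P)) :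
    (P.map (comapToA ι A)).map (IsLocalRing.residue ↥A) ≠ 0 := by
  intro h0
  apply hP
  have hcoef : ∀ i, ϖ ∣ P.coeff i := by
    intro i
    have h1 := congrArg (fun Q => Polynomial.coeff Q i) h0
    simp only [Polynomial.coeff_map, Polynomial.coeff_zero] at h1
    have h2 := comapToA_residue_eq_zero ι A h1
    rw [hϖ.maximalIdeal_eq, Ideal.mem_span_singleton] at h2
    exact h2
  obtain ⟨P', hP'⟩ := (Polynomial.C_dvd_iff_dvd_coeff ϖ P).mpr hcoef
  refine ⟨Polynomial.aeval (jKGen F₀ hj K₁) P', ?_, ?_⟩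
  · rw [chartRing, Algebra.adjoin_singleton_eq_range_aeval]
    exact ⟨P', rfl⟩
  · rw [hP', map_mul, Polynomial.aeval_C, pow_one, Algebra.smul_def]

theorem dg_core (hG : GaussNormalFormGenStatement F₀) (p : ℕ) (hp : p.Prime)
    (hA : A.LiesOverPrime p) [IsDiscreteValuationRing ↥(A.comap ι)]
    (ϖ : ↥(A.comap ι)) (hϖ : Irreducible ϖ)
    (σ : ↥(laurentBaseChange QBar F₀) ≃ₐ[QBar] ↥(laurentBaseChange QBar F₀))
    (hσ : σ (jBarGen F₀ hj) = jBarGen F₀ hj)
    (y : ModelFieldGen K₁ F₀)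
    (hy : y ∈ gaussClosure ↥(A.comap ι) (ModelFieldGen K₁ F₀) ϖ (jKGen F₀ hj K₁)) :
    ∃ r, IsGaussRed A ((σ (klBc ι F₀ y) : ↥(laurentBaseChange QBar F₀)) : LaurentSeries QBar)
      r := by
  classical
  obtain ⟨h, hh, hpi, hint⟩ := hy
  have hh' : h ∈ (Polynomial.aeval (R := ↥(A.comap ι)) (jKGen F₀ hj K₁)).range := by
    rw [← Algebra.adjoin_singleton_eq_range_aeval]
    exact hh
  obtain ⟨P, rfl⟩ := hh'
  set V := gaussValBar F₀ A hG p hp hA with hV
  -- the ring homomorphism `φ = σ ∘ klBc`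
  let φ : ModelFieldGen K₁ F₀ →+* ↥(laurentBaseChange QBar F₀) :=
    (σ : ↥(laurentBaseChange QBar F₀) →+* ↥(laurentBaseChange QBar F₀)).comp (klBc ι F₀)
  have hφ : ∀ z, φ z = σ (klBc ι F₀ z) := fun _ => rfl
  -- `φ` maps `A₁[j]` into `V`
  have hmemV : ∀ c : ↥(chartRing ↥(A.comap ι) (ModelFieldGen K₁ F₀) (jKGen F₀ hj K₁)),
      φ (algebraMap _ (ModelFieldGen K₁ F₀) c) ∈ V := by
    intro c
    have hc : (c : ModelFieldGen K₁ F₀)
        ∈ (Polynomial.aeval (R := ↥(A.comap ι)) (jKGen F₀ hj K₁)).range := by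
      rw [← Algebra.adjoin_singleton_eq_range_aeval]
      exact c.2
    obtain ⟨Pc, hPc⟩ := hc
    show φ (c : ModelFieldGen K₁ F₀) ∈ V
    rw [← hPc, hφ]
    show σ (klBc ι F₀ (Polynomial.aeval (jKGen F₀ hj K₁) Pc)) ∈ V
    rw [aut_klBc_aeval_jKGen F₀ hj ι A σ hσ, hV, mem_gaussValBar, coe_klBc_aeval_jKGen]
    exact ⟨_, IsGaussRed.of_integral _⟩
  let ψ : ↥(chartRing ↥(A.comap ι) (ModelFieldGen K₁ F₀) (jKGen F₀ hj K₁)) →+* ↥V :=
    (φ.comp (algebraMap _ (ModelFieldGen K₁ F₀))).codRestrict V hmemV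
  have hcomm : (algebraMap ↥V ↥(laurentBaseChange QBar F₀)).comp ψ
      = φ.comp (algebraMap
        ↥(chartRing ↥(A.comap ι) (ModelFieldGen K₁ F₀) (jKGen F₀ hj K₁))
          (ModelFieldGen K₁ F₀)) := by
    ext c
    rfl
  -- integrality
  have hint' : IsIntegral ↥(chartRing ↥(A.comap ι) (ModelFieldGen K₁ F₀) (jKGen F₀ hj K₁))
      (Polynomial.aeval (jKGen F₀ hj K₁) P * y) := hint
  have hint'' : IsIntegral ↥V (φ (Polynomial.aeval (jKGen F₀ hj K₁) P * y)) :=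
    IsIntegral.map_of_comp_eq ψ φ hcomm hint'
  obtain ⟨r, hr⟩ := dg_mem_of_isIntegral F₀ A hG p hp hA _ hint''
  -- the denominator
  have hden : IsGaussRed A
      ((klBc ι F₀ (Polynomial.aeval (jKGen F₀ hj K₁) P) : ↥(laurentBaseChange QBar F₀)) :
        LaurentSeries QBar)
      (coeffMap (IsLocalRing.residue ↥A) (polyJ A (P.map (comapToA ι A)))) := by
    rw [coe_klBc_aeval_jKGen]
    exact IsGaussRed.of_integral _
  have hden0 : coeffMap (IsLocalRing.residue ↥A) (polyJ A (P.map (comapToA ι A))) ≠ 0 :=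
    coeffMap_residue_polyJ_ne_zero A _
      (map_residue_ne_zero_of_not_piDvd F₀ hj ι A ϖ hϖ P hpi)
  have hH0 : klBc ι F₀ (Polynomial.aeval (jKGen F₀ hj K₁) P) ≠ 0 := by
    intro h0
    have := hden.ne_zero hden0
    rw [h0] at this
    exact this rfl
  have hprod : φ (Polynomial.aeval (jKGen F₀ hj K₁) P * y)
      = klBc ι F₀ (Polynomial.aeval (jKGen F₀ hj K₁) P) * σ (klBc ι F₀ y) := by
    rw [map_mul, hφ, hφ, aut_klBc_aeval_jKGen F₀ hj ι A σ hσ]
  rw [hprod] at hr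
  have hr' : IsGaussRed A
      (((klBc ι F₀ (Polynomial.aeval (jKGen F₀ hj K₁) P) : ↥(laurentBaseChange QBar F₀)) :
        LaurentSeries QBar) * ((σ (klBc ι F₀ y) : ↥(laurentBaseChange QBar F₀)) :
          LaurentSeries QBar)) r := hr
  have hquot := hr'.div hden hden0
  have hH0' : ((klBc ι F₀ (Polynomial.aeval (jKGen F₀ hj K₁) P) :
      ↥(laurentBaseChange QBar F₀)) : LaurentSeries QBar) ≠ 0 := fun h0 => hH0 (Subtype.ext h0)
  rw [mul_div_assoc, mul_comm, div_mul_cancel₀ _ hH0'] at hquot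
  exact ⟨_, hquot⟩

end Core

end Fermat.Agent.H42.DS

end
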